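import Fermat.Agent.S15.H688.G3
import Fermat.Agent.S29.M1
import Fermat.Agent.S29.M3
import Fermat.Agent.S29.H571.HeckeGalois
import Fermat.Agent.A3.H319.Fin

/-!
# Row S15, DESC (helper688): the Eisenstein part `W_E` of `J₀(p)[r]`

Blueprint `coord/S15-DESC-blueprint.md`, Notation.  For a level `p`, a finite set `S` of primes and
an integer `r`:

* `eisOpJ p ℓ`     : the operator `T_ℓ - (1 + ℓ)` on `J₀(p)(ℚ̄)`;
* `eisPart p S r`  : `W_E = {w ∈ J₀(p)[r] : ∀ ℓ ∉ S ∪ {p}, (T_ℓ - 1 - ℓ)^n w = 0 for some n}`,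
  an additive subgroup of `JZero p`;
* it is stable under `Gal(ℚ̄/ℚ)` (`smul_mem_eisPart`) and under all Hecke operators
  (`hecke_mem_eisPart`), finite for `r ≠ 0` (`finite_eisPart`), and the nilpotency is uniform
  (`exists_pow_eisOpJ_eq_zero`);
* every rational torsion Eisenstein vector killed by `r` lies in it (`mem_eisPart_of_eisenstein`).

Everything is unconditional.
-/

set_option autoImplicit false

noncomputable section

namespace Fermat.Agent.S15.H688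

open ModularCurve

variable (p : ℕ) [NeZero p]

/-- the operator `T_ℓ - (1 + ℓ)` on `J₀(p)(ℚ̄)` -/
def eisOpJ (ℓ : Nat.Primes) : Module.End ℤ (JZero p) :=
  heckeOperatorBar p ℓ - ((1 + (ℓ : ℕ) : ℕ) : Module.End ℤ (JZero p))

theorem eisOpJ_apply (ℓ : Nat.Primes) (x : JZero p) :
    eisOpJ p ℓ x = heckeOperatorBar p ℓ x - (1 + (ℓ : ℕ)) • x := by
  rw [eisOpJ, LinearMap.sub_apply, Module.End.natCast_apply]

theorem eisOpJ_smul (ℓ : Nat.Primes) (σ : GalQ688) (x : JZero p) :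
    eisOpJ p ℓ (σ • x) = σ • eisOpJ p ℓ x := by
  rw [eisOpJ_apply, eisOpJ_apply, Fermat.Agent.S29.H571.heckeOperatorBar_smul,
    smul_comm (1 + (ℓ : ℕ)) σ x]
  exact (smul_sub σ _ _).symm

theorem eisOpJ_pow_smul (ℓ : Nat.Primes) (n : ℕ) (σ : GalQ688) (x : JZero p) :
    (eisOpJ p ℓ ^ n) (σ • x) = σ • (eisOpJ p ℓ ^ n) x := by
  induction n generalizing x with
  | zero => simp
  | succ n ih =>
    rw [pow_succ, Module.End.mul_apply, Module.End.mul_apply, eisOpJ_smul, ih]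

theorem commute_hecke_eisOpJ (ℓ' ℓ : Nat.Primes) :
    Commute (heckeOperatorBar p ℓ') (eisOpJ p ℓ) := by
  refine Commute.sub_right ?_ (Nat.cast_commute _ _).symm
  exact Fermat.Agent.S29.heckeOperatorsCommuteBar p ℓ' ℓ

theorem commute_eisOpJ (ℓ' ℓ : Nat.Primes) :
    Commute (eisOpJ p ℓ') (eisOpJ p ℓ) := by
  refine Commute.sub_left (commute_hecke_eisOpJ p ℓ' ℓ) ?_
  exact Nat.cast_commute _ _

theorem eisOpJ_pow_of_le (ℓ : Nat.Primes) {n m : ℕ} (h : n ≤ m) {x : JZero p}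
    (hx : (eisOpJ p ℓ ^ n) x = 0) : (eisOpJ p ℓ ^ m) x = 0 := by
  obtain ⟨k, rfl⟩ := Nat.exists_eq_add_of_le h
  rw [add_comm, pow_add, Module.End.mul_apply, hx, map_zero]

variable (S : Finset ℕ) (r : ℕ)

/-- **The Eisenstein part `W_E` of `J₀(p)[r]`** (away from `S ∪ {p}`). -/
def eisPart : AddSubgroup (JZero p) where
  carrier := {w | r • w = 0 ∧ ∀ ℓ : Nat.Primes, (ℓ : ℕ) ≠ p → (ℓ : ℕ) ∉ S →
    ∃ n : ℕ, (eisOpJ p ℓ ^ n) w = 0}
  zero_mem' := ⟨nsmul_zero _, fun ℓ _ _ => ⟨0, map_zero _⟩⟩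
  add_mem' := by
    rintro a b ⟨ha, ha'⟩ ⟨hb, hb'⟩
    refine ⟨by rw [nsmul_add, ha, hb, add_zero], fun ℓ h1 h2 => ?_⟩
    obtain ⟨n, hn⟩ := ha' ℓ h1 h2
    obtain ⟨m, hm⟩ := hb' ℓ h1 h2
    refine ⟨n + m, ?_⟩
    rw [map_add, eisOpJ_pow_of_le p ℓ (Nat.le_add_right n m) hn,
      eisOpJ_pow_of_le p ℓ (Nat.le_add_left m n) hm, add_zero]
  neg_mem' := by
    rintro a ⟨ha, ha'⟩
    refine ⟨by rw [neg_nsmul, ha, neg_zero], fun ℓ h1 h2 => ?_⟩
    obtain ⟨n, hn⟩ := ha' ℓ h1 h2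
    exact ⟨n, by rw [map_neg, hn, neg_zero]⟩

variable {p S r}

theorem mem_eisPart {w : JZero p} :
    w ∈ eisPart p S r ↔ r • w = 0 ∧ ∀ ℓ : Nat.Primes, (ℓ : ℕ) ≠ p → (ℓ : ℕ) ∉ S →
      ∃ n : ℕ, (eisOpJ p ℓ ^ n) w = 0 := Iff.rfl

theorem nsmul_eq_zero_of_mem_eisPart {w : JZero p} (hw : w ∈ eisPart p S r) : r • w = 0 := hw.1

/-- `W_E` is stable under the Galois group. -/
theorem smul_mem_eisPart (σ : GalQ688) {w : JZero p} (hw : w ∈ eisPart p S r) :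
    σ • w ∈ eisPart p S r := by
  have h0 : σ • (0 : JZero p) = 0 := @smul_zero GalQ688 (JZero p) _ _ σ
  refine ⟨by rw [smul_comm r σ w, hw.1, h0], fun ℓ h1 h2 => ?_⟩
  obtain ⟨n, hn⟩ := hw.2 ℓ h1 h2
  exact ⟨n, by rw [eisOpJ_pow_smul, hn, h0]⟩

/-- `W_E` is stable under all Hecke operators. -/
theorem hecke_mem_eisPart (ℓ' : Nat.Primes) {w : JZero p} (hw : w ∈ eisPart p S r) :
    heckeOperatorBar p ℓ' w ∈ eisPart p S r := by
  refine ⟨by rw [← map_nsmul, hw.1, map_zero], fun ℓ h1 h2 => ?_⟩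
  obtain ⟨n, hn⟩ := hw.2 ℓ h1 h2
  refine ⟨n, ?_⟩
  have h := ((commute_hecke_eisOpJ p ℓ' ℓ).pow_right n).eq
  have h' := congrArg (fun f : Module.End ℤ (JZero p) => f w) h
  simp only [Module.End.mul_apply] at h'
  rw [← h', hn, map_zero]

/-- `W_E` is stable under the operators `T_ℓ - (1 + ℓ)`. -/
theorem eisOpJ_mem_eisPart (ℓ' : Nat.Primes) {w : JZero p} (hw : w ∈ eisPart p S r) :
    eisOpJ p ℓ' w ∈ eisPart p S r := by
  rw [eisOpJ_apply]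
  exact sub_mem (hecke_mem_eisPart ℓ' hw) (nsmul_mem hw _)

/-- A vector killed by `r` on which `T_ℓ = 1 + ℓ` for all `ℓ ∉ S ∪ {p}` lies in `W_E`. -/
theorem mem_eisPart_of_eisenstein {w : JZero p} (hr : r • w = 0)
    (hw : ∀ ℓ : Nat.Primes, (ℓ : ℕ) ≠ p → (ℓ : ℕ) ∉ S →
      heckeOperatorBar p ℓ w = (1 + (ℓ : ℕ)) • w) : w ∈ eisPart p S r :=
  ⟨hr, fun ℓ h1 h2 => ⟨1, by rw [pow_one, eisOpJ_apply, hw ℓ h1 h2, sub_self]⟩⟩

variable (p S r)

/-- `W_E` is finite (`r ≠ 0`). -/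
theorem finite_eisPart (hr : r ≠ 0) : Finite (eisPart p S r) := by
  haveI := Fermat.Agent.A3.H319.finite_torsionBy p (r : ℤ) (Int.natCast_ne_zero.mpr hr)
  refine Finite.of_injective
    (fun w : eisPart p S r => (⟨w.1, by
      rw [Submodule.mem_torsionBy_iff, natCast_zsmul]
      exact w.2.1⟩ : Submodule.torsionBy ℤ (JZero p) (r : ℤ))) ?_
  intro a b h
  exact Subtype.ext (congrArg (fun x : Submodule.torsionBy ℤ (JZero p) (r : ℤ) => (x : JZero p)) h)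

/-- Uniform nilpotency on `W_E`: one exponent for all vectors (`r ≠ 0`). -/
theorem exists_pow_eisOpJ_eq_zero (hr : r ≠ 0) (ℓ : Nat.Primes) (h1 : (ℓ : ℕ) ≠ p)
    (h2 : (ℓ : ℕ) ∉ S) :
    ∃ n : ℕ, ∀ w ∈ eisPart p S r, (eisOpJ p ℓ ^ n) w = 0 := by
  classical
  haveI := finite_eisPart p S r hr
  haveI := Fintype.ofFinite (eisPart p S r)
  choose f hf using fun w : eisPart p S r => w.2.2 ℓ h1 h2
  refine ⟨Finset.univ.sup f, fun w hw => ?_⟩
  exact eisOpJ_pow_of_le p ℓ (Finset.le_sup (f := f) (Finset.mem_univ ⟨w, hw⟩)) (hf ⟨w, hw⟩)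

end Fermat.Agent.S15.H688

end
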