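import Fermat.Agent.S15.H688.EisPart
import Fermat.Agent.S15.H62.FrobNilpotent
import Fermat.Agent.Lib.Cheb.H943.End
import Fermat.Agent.S29.H872.Cyclo

/-!
# Row S15, DESC leaf FLAG-glue (helper688): the Eisenstein flag on `W_E ⊂ J₀(p)[r]`

Blueprint `coord/S15-DESC-blueprint.md` sec. 1.  For a level `p`, a finite set `S` of primes and a
prime `r`, the Eisenstein part `W_E = eisPart p S r` of `J₀(p)[r]` has a full flag of
`Gal(ℚ̄/ℚ)`-stable subgroups with successive quotients of order `r` on which the Galois group acts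
trivially (`ε i = false`, type `ℤ/r`) or through the mod `r` cyclotomic character (`ε i = true`,
type `μ_r`).

Inputs, all on main, all unconditional:
* the abstract flag lemma `H62.exists_flag_of_frobenius` (helper62);
* the raw Eichler–Shimura relation on `J₀(p)[r]` (`S37.Core.rawES`, rows S37 + S18);
* Frobenius' density theorem (`Lib.Cheb.H943.frobeniusDivisionStatement`);
* smoothness of the Galois action (`S29.jZero_smooth`), finiteness of torsion (`A3.H319`);
* the mod `r` cyclotomic character at Frobenius elements (`S29.H872.cycloChar_frobenius`).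

Main results:
* `hasFlagFrom_eisPart` : `H62.HasFlagFrom (rhoEis p S r) (cycloChar r) ⊥` (module form);
* `exists_flag_eisPart` : the same flag as subgroups of `JZero p` (concrete form, no instances).
-/

set_option autoImplicit false

noncomputable section

namespace Fermat.Agent.S15.H688

open ModularCurve ExtCitation

variable (p : ℕ) [NeZero p] (S : Finset ℕ) (r : ℕ)

theorem nsmul_eq_zero_eisPart (w : eisPart p S r) : r • w = 0 :=
  Subtype.ext (by
    rw [AddSubgroup.coe_nsmul]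
    exact w.2.1)

/-- the `ℤ/r`-module structure on `W_E` -/
def eisModule : Module (ZMod r) (eisPart p S r) :=
  AddCommGroup.zmodModule (nsmul_eq_zero_eisPart p S r)

attribute [local instance] eisModule

/-- the Galois action on `W_E`, additive form -/
def galEis (σ : GalQ688) : eisPart p S r →+ eisPart p S r where
  toFun w := ⟨σ • (w : JZero p), smul_mem_eisPart σ w.2⟩
  map_zero' := Subtype.ext (@smul_zero GalQ688 (JZero p) _ _ σ)
  map_add' a b := Subtype.ext (smul_add σ (a : JZero p) b)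

@[simp] theorem coe_galEis (σ : GalQ688) (w : eisPart p S r) :
    ((galEis p S r σ w : eisPart p S r) : JZero p) = σ • (w : JZero p) := rfl

/-- the Galois representation on `W_E` -/
def rhoEis : Representation (ZMod r) GalQ688 (eisPart p S r) where
  toFun σ := (galEis p S r σ).toZModLinearMap r
  map_one' := by
    refine LinearMap.ext fun w => Subtype.ext ?_
    show (1 : GalQ688) • (w : JZero p) = w
    exact one_smul _ _
  map_mul' σ τ := by
    refine LinearMap.ext fun w => Subtype.ext ?_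
    show (σ * τ) • (w : JZero p) = σ • τ • (w : JZero p)
    exact mul_smul _ _ _

@[simp] theorem coe_rhoEis (σ : GalQ688) (w : eisPart p S r) :
    ((rhoEis p S r σ w : eisPart p S r) : JZero p) = σ • (w : JZero p) := rfl

/-- the Hecke operator `T_ℓ` on `W_E`, additive form -/
def heckeEisAdd (ℓ : Nat.Primes) : eisPart p S r →+ eisPart p S r where
  toFun w := ⟨heckeOperatorBar p ℓ (w : JZero p), hecke_mem_eisPart ℓ w.2⟩
  map_zero' := Subtype.ext (map_zero _)
  map_add' a b := Subtype.ext (map_add _ (a : JZero p) b)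

/-- the Hecke operator `T_ℓ` on `W_E` (`0` if `ℓ` is not prime) -/
def heckeEis (ℓ : ℕ) : Module.End (ZMod r) (eisPart p S r) :=
  if h : ℓ.Prime then (heckeEisAdd p S r ⟨ℓ, h⟩).toZModLinearMap r else 0

theorem coe_heckeEis {ℓ : ℕ} (h : ℓ.Prime) (w : eisPart p S r) :
    ((heckeEis p S r ℓ w : eisPart p S r) : JZero p) = heckeOperatorBar p ⟨ℓ, h⟩ (w : JZero p) := by
  rw [heckeEis, dif_pos h]
  rfl

attribute [irreducible] heckeEis

theorem coe_natCast_smul_eisPart (n : ℕ) (w : eisPart p S r) :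
    (((n : ZMod r) • w : eisPart p S r) : JZero p) = n • (w : JZero p) := by
  rw [Nat.cast_smul_eq_nsmul, AddSubgroup.coe_nsmul]

theorem coe_algebraMap_eisPart (n : ℕ) (w : eisPart p S r) :
    ((algebraMap (ZMod r) (Module.End (ZMod r) (eisPart p S r)) (n : ZMod r) w : eisPart p S r) :
      JZero p) = n • (w : JZero p) := by
  rw [Module.algebraMap_end_apply, coe_natCast_smul_eisPart]

/-- the operator `T_ℓ - (1 + ℓ)` on `W_E` is the restriction of `eisOpJ`. -/
theorem coe_heckeEis_sub {ℓ : ℕ} (h : ℓ.Prime) (w : eisPart p S r) :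
    (((heckeEis p S r ℓ - (1 + algebraMap (ZMod r) (Module.End (ZMod r) (eisPart p S r))
      (ℓ : ZMod r))) w : eisPart p S r) : JZero p) = eisOpJ p ⟨ℓ, h⟩ (w : JZero p) := by
  have e := eisOpJ_apply p ⟨ℓ, h⟩ (w : JZero p)
  rw [LinearMap.sub_apply, LinearMap.add_apply, Module.End.one_apply, AddSubgroup.coe_sub,
    AddSubgroup.coe_add, coe_heckeEis p S r h, coe_algebraMap_eisPart]
  refine Eq.trans ?_ e.symm
  rw [add_nsmul, one_nsmul]

theorem coe_heckeEis_sub_pow {ℓ : ℕ} (h : ℓ.Prime) (n : ℕ) (w : eisPart p S r) :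
    ((((heckeEis p S r ℓ - (1 + algebraMap (ZMod r) (Module.End (ZMod r) (eisPart p S r))
      (ℓ : ZMod r))) ^ n) w : eisPart p S r) : JZero p) = (eisOpJ p ⟨ℓ, h⟩ ^ n) (w : JZero p) := by
  induction n generalizing w with
  | zero => simp
  | succ n ih =>
    rw [pow_succ, Module.End.mul_apply, ih, coe_heckeEis_sub p S r h, pow_succ,
      Module.End.mul_apply]

/-- A finite level through which the Galois action on `W_E` and the mod `r` cyclotomic character
factor. -/
theorem exists_level_eisPart [Fact r.Prime] :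
    ∃ E : IntermediateField ℚ (AlgebraicClosure ℚ), FiniteDimensional ℚ E ∧
      (∀ σ τ : GalQ688, (∀ x ∈ E, σ x = τ x) → rhoEis p S r σ = rhoEis p S r τ) ∧
      (∀ σ τ : GalQ688, (∀ x ∈ E, σ x = τ x) → cycloChar r σ = cycloChar r τ) := by
  classical
  have hr : r ≠ 0 := (Fact.out : r.Prime).ne_zero
  haveI := finite_eisPart p S r hr
  choose L hLfd hL using fun w : eisPart p S r => Fermat.Agent.S29.jZero_smooth p (w : JZero p)
  haveI : ∀ w, FiniteDimensional ℚ (L w) := hLfd
  let R : Set (AlgebraicClosure ℚ) := {t | t ^ r = 1}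
  have hRfin : R.Finite := by
    refine (Polynomial.nthRootsFinset r (1 : AlgebraicClosure ℚ)).finite_toSet.subset ?_
    intro t ht
    exact (Polynomial.mem_nthRootsFinset (Nat.pos_of_ne_zero hr) 1).2 ht
  haveI : Finite R := hRfin.to_subtype
  haveI : FiniteDimensional ℚ (IntermediateField.adjoin ℚ R) :=
    IntermediateField.finiteDimensional_adjoin fun x _ =>
      (AlgebraicClosure.isAlgebraic ℚ).isIntegral.isIntegral x
  refine ⟨(⨆ w, L w) ⊔ IntermediateField.adjoin ℚ R, inferInstance, ?_, ?_⟩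
  · intro σ τ h
    refine LinearMap.ext fun w => Subtype.ext ?_
    show σ • (w : JZero p) = τ • (w : JZero p)
    have hfix : ∀ y ∈ L w, (σ⁻¹ * τ) y = y := by
      intro y hy
      have hyE : y ∈ (⨆ w, L w) ⊔ IntermediateField.adjoin ℚ R :=
        (le_sup_left : (⨆ w, L w) ≤ _) ((le_iSup L w) hy)
      rw [AlgEquiv.mul_apply, ← h y hyE]
      exact σ.symm_apply_apply y
    have h1 : (σ⁻¹ * τ) • (w : JZero p) = w := hL w (σ⁻¹ * τ) hfix
    have h2 : σ • ((σ⁻¹ * τ) • (w : JZero p)) = τ • (w : JZero p) := by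
      rw [← mul_smul, mul_inv_cancel_left]
    rw [← h2, h1]
  · intro σ τ h
    have hfix : ∀ t : AlgebraicClosure ℚ, t ^ r = 1 → (σ⁻¹ * τ) t = t := by
      intro t ht
      have htE : t ∈ (⨆ w, L w) ⊔ IntermediateField.adjoin ℚ R :=
        (le_sup_right : IntermediateField.adjoin ℚ R ≤ _)
          (IntermediateField.subset_adjoin ℚ R ht)
      rw [AlgEquiv.mul_apply, ← h t htE]
      exact σ.symm_apply_apply t
    have h1 := Fermat.Agent.S29.H872.cycloChar_eq_one_of_fixes_roots r (σ⁻¹ * τ) hfix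
    rw [map_mul, map_inv, inv_mul_eq_one] at h1
    exact h1

theorem not_mem_insert688 {ℓ : ℕ} (h : ℓ ∉ insert p (insert r S)) : ℓ ≠ p ∧ ℓ ≠ r ∧ ℓ ∉ S := by
  simp only [Finset.mem_insert, not_or] at h
  exact ⟨h.1, h.2.1, h.2.2⟩

/-- the Hecke operators commute with the Galois action on `W_E` -/
theorem commute_heckeEis_rhoEis (ℓ : ℕ) (hℓ : ℓ.Prime) (σ : GalQ688) :
    Commute (heckeEis p S r ℓ) (rhoEis p S r σ) := by
  refine LinearMap.ext fun w => Subtype.ext ?_
  rw [Module.End.mul_apply, Module.End.mul_apply, coe_heckeEis p S r hℓ, coe_rhoEis,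
    coe_rhoEis, coe_heckeEis p S r hℓ]
  exact Fermat.Agent.S29.H571.heckeOperatorBar_smul p ⟨ℓ, hℓ⟩ σ w

/-- `T_ℓ - (1 + ℓ)` is nilpotent on `W_E` -/
theorem isNilpotent_heckeEis_sub (hr : r ≠ 0) (ℓ : ℕ) (hℓ : ℓ.Prime) (h1 : ℓ ≠ p) (h2 : ℓ ∉ S) :
    IsNilpotent (heckeEis p S r ℓ -
      (1 + algebraMap (ZMod r) (Module.End (ZMod r) (eisPart p S r)) (ℓ : ZMod r))) := by
  obtain ⟨n, hn⟩ := exists_pow_eisOpJ_eq_zero p S r hr ⟨ℓ, hℓ⟩ h1 h2
  refine ⟨n, LinearMap.ext fun w => Subtype.ext ?_⟩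
  rw [coe_heckeEis_sub_pow p S r hℓ, hn _ w.2]
  rfl

/-- the Eichler–Shimura relation on `W_E` -/
theorem eichlerShimura_eisPart (hp : p.Prime) (hr : r.Prime) (ℓ : ℕ) (hℓ : ℓ.Prime)
    (h1 : ℓ ≠ p) (h2 : ℓ ≠ r) (A : ValuationSubring (AlgebraicClosure ℚ))
    (hA : A.LiesOverPrime ℓ) (τ : GalQ688) (hτ : A.IsFrobeniusAt τ ℓ) :
    rhoEis p S r τ * rhoEis p S r τ - heckeEis p S r ℓ * rhoEis p S r τ +
      algebraMap (ZMod r) (Module.End (ZMod r) (eisPart p S r)) (ℓ : ZMod r) = 0 := by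
  have hdvd : ¬ ℓ ∣ p * r := by
    intro h
    rcases (Nat.Prime.dvd_mul hℓ).1 h with h | h
    · exact h1 ((Nat.prime_dvd_prime_iff_eq hℓ hp).1 h)
    · exact h2 ((Nat.prime_dvd_prime_iff_eq hℓ hr).1 h)
  obtain ⟨-, hES⟩ := Fermat.Agent.S37.Core.rawES p r ℓ hℓ hdvd A hA
  refine LinearMap.ext fun w => Subtype.ext ?_
  have hw : (r : ℤ) • (w : JZero p) = 0 := by
    rw [natCast_zsmul]
    exact w.2.1
  have h3 := hES τ hτ w hw
  rw [natCast_zsmul] at h3
  have e1 : (rhoEis p S r τ * rhoEis p S r τ - heckeEis p S r ℓ * rhoEis p S r τ +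
      algebraMap (ZMod r) (Module.End (ZMod r) (eisPart p S r)) (ℓ : ZMod r)) w =
      rhoEis p S r τ (rhoEis p S r τ w) - heckeEis p S r ℓ (rhoEis p S r τ w) +
        algebraMap (ZMod r) (Module.End (ZMod r) (eisPart p S r)) (ℓ : ZMod r) w := rfl
  have c1 : ((rhoEis p S r τ (rhoEis p S r τ w) : eisPart p S r) : JZero p) =
      τ • τ • (w : JZero p) := rfl
  have c2 : ((heckeEis p S r ℓ (rhoEis p S r τ w) : eisPart p S r) : JZero p) =
      heckeOperatorBar p ⟨ℓ, hℓ⟩ (τ • (w : JZero p)) := coe_heckeEis p S r hℓ _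
  have c3 : ((algebraMap (ZMod r) (Module.End (ZMod r) (eisPart p S r)) (ℓ : ZMod r) w :
      eisPart p S r) : JZero p) = ℓ • (w : JZero p) := coe_algebraMap_eisPart p S r ℓ w
  have e2 : (((rhoEis p S r τ (rhoEis p S r τ w) - heckeEis p S r ℓ (rhoEis p S r τ w) +
        algebraMap (ZMod r) (Module.End (ZMod r) (eisPart p S r)) (ℓ : ZMod r) w :
        eisPart p S r)) : JZero p) =
      τ • τ • (w : JZero p) - heckeOperatorBar p ⟨ℓ, hℓ⟩ (τ • (w : JZero p)) +
        ℓ • (w : JZero p) :=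
    (AddSubgroup.coe_add _ _ _).trans
      (congrArg₂ (· + ·) ((AddSubgroup.coe_sub _ _ _).trans (congrArg₂ (· - ·) c1 c2)) c3)
  rw [e1, e2, h3]
  rfl

/-- **FLAG, module form.**  The Eisenstein part `W_E` of `J₀(p)[r]` (`p`, `r` primes) has a
`Gal(ℚ̄/ℚ)`-stable full flag with graded pieces of type `ℤ/r` or `μ_r`. -/
theorem hasFlagFrom_eisPart (hp : p.Prime) [Fact r.Prime] :
    Fermat.Agent.S15.H62.HasFlagFrom (rhoEis p S r) (cycloChar r) ⊥ := by
  have hr : r.Prime := Fact.out
  haveI := finite_eisPart p S r hr.ne_zero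
  obtain ⟨E, hE, hρE, hχE⟩ := exists_level_eisPart p S r
  exact Fermat.Agent.S15.H62.exists_flag_of_frobenius (rhoEis p S r) (cycloChar r) E hE hρE hχE
    (insert p (insert r S)) (heckeEis p S r)
    (fun ℓ hℓ _ σ => commute_heckeEis_rhoEis p S r ℓ hℓ σ)
    (fun ℓ hℓ hℓS => isNilpotent_heckeEis_sub p S r hr.ne_zero ℓ hℓ
      (not_mem_insert688 p S r hℓS).1 (not_mem_insert688 p S r hℓS).2.2)
    (fun ℓ hℓ hℓS A hA τ hτ => eichlerShimura_eisPart p S r hp hr ℓ hℓ
      (not_mem_insert688 p S r hℓS).1 (not_mem_insert688 p S r hℓS).2.1 A hA τ hτ)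
    (fun ℓ hℓ hℓS A hA τ hτ => Fermat.Agent.S29.H872.cycloChar_frobenius r hℓ
      (not_mem_insert688 p S r hℓS).2.1 A hA τ hτ)
    Fermat.Agent.Lib.Cheb.H943.frobeniusDivisionStatement

/-- in a `ℤ/r`-module, the `ℤ/r`-span of a vector is the group of its multiples -/
theorem span_singleton_toAddSubgroup688 {V : Type*} [AddCommGroup V] [Module (ZMod r) V]
    (u : V) : (Submodule.span (ZMod r) {u}).toAddSubgroup = AddSubgroup.zmultiples u := by
  ext x
  rw [Submodule.mem_toAddSubgroup, Submodule.mem_span_singleton, AddSubgroup.mem_zmultiples_iff]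
  constructor
  · rintro ⟨c, rfl⟩
    refine ⟨(ZMod.cast c : ℤ), ?_⟩
    rw [← Int.cast_smul_eq_zsmul (ZMod r), ZMod.intCast_zmod_cast]
  · rintro ⟨k, rfl⟩
    exact ⟨(k : ZMod r), Int.cast_smul_eq_zsmul (ZMod r) k u⟩

/-- **FLAG, concrete form.**  For primes `p`, `r` and a finite set `S` of primes, the Eisenstein
part `W_E = eisPart p S r` of `J₀(p)[r]` has a full flag `0 = F 0 < F 1 < ⋯ < F n = W_E` of
subgroups with `F (i+1) = F i + ℤ u_i`, `u_i ∉ F i`, `r u_i = 0`, such that every `σ ∈ Gal(ℚ̄/ℚ)`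
acts on `u_i` modulo `F i` trivially (`ε i = false`) or through the mod `r` cyclotomic character
(`ε i = true`). -/
theorem exists_flag_eisPart (hp : p.Prime) [Fact r.Prime] :
    ∃ (n : ℕ) (F : ℕ → AddSubgroup (JZero p)) (u : ℕ → JZero p) (ε : ℕ → Bool),
      F 0 = ⊥ ∧ F n = eisPart p S r ∧
      (∀ i < n, F (i + 1) = F i ⊔ AddSubgroup.zmultiples (u i)) ∧
      (∀ i < n, u i ∉ F i) ∧
      (∀ i < n, u i ∈ eisPart p S r) ∧
      (∀ i < n, ∀ σ : GalQ688,
        σ • u i - (if ε i then cycloExp r σ else 1) • u i ∈ F i) := by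
  obtain ⟨n, F, u, ε, h0, hn, hstep, hnot, hact⟩ := hasFlagFrom_eisPart p S r hp
  refine ⟨n, fun i => (F i).toAddSubgroup.map (eisPart p S r).subtype,
    fun i => (u i : JZero p), ε, ?_, ?_, ?_, ?_, ?_, ?_⟩
  · show (F 0).toAddSubgroup.map (eisPart p S r).subtype = ⊥
    rw [h0, Submodule.bot_toAddSubgroup, AddSubgroup.map_bot]
  · show (F n).toAddSubgroup.map (eisPart p S r).subtype = eisPart p S r
    rw [hn, Submodule.top_toAddSubgroup, ← AddMonoidHom.range_eq_map, AddSubgroup.range_subtype]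
  · intro i hi
    show (F (i + 1)).toAddSubgroup.map (eisPart p S r).subtype =
      (F i).toAddSubgroup.map (eisPart p S r).subtype ⊔ AddSubgroup.zmultiples (u i : JZero p)
    rw [hstep i hi, Submodule.sup_toAddSubgroup, AddSubgroup.map_sup,
      span_singleton_toAddSubgroup688, AddMonoidHom.map_zmultiples]
    rfl
  · intro i hi hmem
    obtain ⟨x, hx, hxu⟩ := AddSubgroup.mem_map.1 hmem
    have : x = u i := Subtype.ext hxu
    exact hnot i hi (this ▸ hx)
  · intro i _
    exact (u i).2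
  · intro i hi σ
    refine AddSubgroup.mem_map.2 ⟨_, hact i hi σ, ?_⟩
    show ((rhoEis p S r σ (u i) - (if ε i then ((cycloChar r σ : (ZMod r)ˣ) : ZMod r) else 1) • u i :
      eisPart p S r) : JZero p) = σ • (u i : JZero p) - (if ε i then cycloExp r σ else 1) • (u i : JZero p)
    rw [AddSubgroup.coe_sub, coe_rhoEis]
    congr 1
    cases ε i
    · simp
    · simp only [if_true]
      rw [coe_cycloChar, coe_natCast_smul_eisPart]

end Fermat.Agent.S15.H688

end
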