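import Fermat.Agent.S15.H688.Flag
import Fermat.Agent.S15.H975.DescSpec

/-!
# Row S15, DESC leaf FLAG (helper688): `flagStatement : H975.FlagStatement`

The frozen leaf `Fermat.Agent.S15.H975.FlagStatement` of the skeleton
`Fermat/Agent/S15/H975/DescSpec.lean`, UNCONDITIONALLY, from `H688.exists_flag_eisPart`
(`Fermat/Agent/S15/H688/Flag.lean`).

* `eis_eq_eisPart`     : `H975.eis p S r = H688.eisPart p S r`;
* `isFlag_of_flagData` : the adapter (stability by induction, index `r`, type of the piece);
* `flagStatement`      : the leaf (the hypothesis `r ∣ p - 1` is not used).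
-/

set_option autoImplicit false

noncomputable section

namespace Fermat.Agent.S15.H688

open ModularCurve ExtCitation Fermat.Agent.S15.H975

variable (p : ℕ) [NeZero p]

theorem eta_eq_eisOpJ (ℓ : Nat.Primes) : eta p ℓ = eisOpJ p ℓ := by
  refine LinearMap.ext fun x => ?_
  rw [eisOpJ_apply, eta, LinearMap.sub_apply, LinearMap.smul_apply, Module.End.one_apply,
    natCast_zsmul]

theorem eis_eq_eisPart (S : Finset ℕ) (r : ℕ) : eis p (S : Set ℕ) r = eisPart p S r := by
  ext w
  constructor
  · rintro ⟨h1, h2⟩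
    refine ⟨h1, fun ℓ a b => ?_⟩
    obtain ⟨k, hk⟩ := h2 ℓ a (by simpa using b)
    exact ⟨k, by rwa [← eta_eq_eisOpJ]⟩
  · rintro ⟨h1, h2⟩
    refine ⟨h1, fun ℓ a b => ?_⟩
    obtain ⟨k, hk⟩ := h2 ℓ a (by simpa using b)
    exact ⟨k, by rwa [eta_eq_eisOpJ]⟩

variable {p}

theorem gal_smul_zsmul688 (σ : GalQ688) (k : ℤ) (x : JZero p) : σ • (k • x) = k • (σ • x) :=
  (smul_comm k σ x).symm

/-- one step of a flag: `F' ⊔ ℤ u` is Galois-stable if `F'` is and `σ u ≡ c u mod F'`. -/
theorem isStable_step688 {F' : AddSubgroup (JZero p)} (hF' : IsStable p F') {u : JZero p}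
    (c : GalQ688 → ℕ) (hu : ∀ σ : GalQ688, σ • u - c σ • u ∈ F') :
    IsStable p (F' ⊔ AddSubgroup.zmultiples u) := by
  intro σ f hf
  obtain ⟨a, ha, b, hb, rfl⟩ := AddSubgroup.mem_sup.1 hf
  obtain ⟨k, rfl⟩ := AddSubgroup.mem_zmultiples_iff.1 hb
  have e : σ • (a + k • u) = (σ • a + k • (σ • u - c σ • u)) + k • (c σ • u) := by
    rw [smul_add σ a (k • u), gal_smul_zsmul688, zsmul_sub, add_assoc, sub_add_cancel]
  rw [e]
  refine AddSubgroup.mem_sup.2 ⟨_, F'.add_mem (hF' σ a ha) (F'.zsmul_mem (hu σ) k), _, ?_, rfl⟩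
  exact AddSubgroup.zsmul_mem _ (AddSubgroup.nsmul_mem _ (AddSubgroup.mem_zmultiples u) _) k

/-- the index of a step of the flag is `r` -/
theorem relIndex_step688 {r : ℕ} (hr : r.Prime) {F' : AddSubgroup (JZero p)} {u : JZero p}
    (hu : u ∉ F') (hru : r • u = 0) :
    F'.relIndex (F' ⊔ AddSubgroup.zmultiples u) = r := by
  have hu0 : u ≠ 0 := fun h => hu (h ▸ F'.zero_mem)
  haveI : Fact r.Prime := ⟨hr⟩
  have hord : addOrderOf u = r := addOrderOf_eq_prime hru hu0
  have hinf : F' ⊓ AddSubgroup.zmultiples u = ⊥ := by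
    rw [eq_bot_iff]
    rintro x ⟨hx1, hx2⟩
    obtain ⟨k, rfl⟩ := AddSubgroup.mem_zmultiples_iff.1 hx2
    rw [AddSubgroup.mem_bot]
    by_contra hne
    -- `r ∤ k`, so `u` is a multiple of `k • u`
    have hrk : ¬ (r : ℤ) ∣ k := by
      rintro ⟨m, rfl⟩
      apply hne
      rw [mul_comm, mul_smul, natCast_zsmul, hru, smul_zero]
    have hcop : IsCoprime (r : ℤ) k := by
      rw [Int.isCoprime_iff_gcd_eq_one]
      have h := (Nat.Prime.coprime_iff_not_dvd hr).2 (by rwa [Int.natCast_dvd] at hrk)
      simpa [Int.gcd, Nat.Coprime] using h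
    obtain ⟨a, b, hab⟩ := hcop
    have h2 : (a * r + b * k) • u = u := by rw [hab, one_smul]
    have h3 : (a * (r : ℤ) + b * k) • u = b • (k • u) := by
      have e1 : (r : ℤ) • u = 0 := by rw [natCast_zsmul, hru]
      have e2 : (a * (r : ℤ) + b * k) • u = a • ((r : ℤ) • u) + b • (k • u) := by module
      rw [e2, e1, smul_zero, zero_add]
    rw [h3] at h2
    exact hu (h2 ▸ F'.zsmul_mem hx1 b)
  rw [AddSubgroup.relIndex_sup_left, ← AddSubgroup.inf_relIndex_right, hinf,
    AddSubgroup.relIndex_bot_left, Nat.card_zmultiples, hord]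

/-- the value of the cyclotomic exponent from the action on ONE primitive root of unity -/
theorem cycloExp_smul_eq688 {r : ℕ} [Fact r.Prime] {ζ : AlgebraicClosure ℚ}
    (hζ : IsPrimitiveRoot ζ r) (σ : GalQ688) (k : ℕ) (hk : σ ζ = ζ ^ k) {u : JZero p}
    (hru : r • u = 0) : cycloExp r σ • u = k • u := by
  have hr : r.Prime := Fact.out
  haveI : NeZero r := ⟨hr.ne_zero⟩
  have hchar : (k : ZMod r) = ((cycloChar r σ : (ZMod r)ˣ) : ZMod r) := by
    have h := modularCyclotomicCharacter.unique (AlgebraicClosure ℚ) (card_rootsOfUnity_eq_self r)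
      (σ : AlgebraicClosure ℚ ≃+* AlgebraicClosure ℚ) (c := (k : ZMod r))
      (fun t ht => by
        have htr : (t : AlgebraicClosure ℚ) ^ r = 1 := by
          have := (mem_rootsOfUnity r t).1 ht
          rw [← Units.val_pow_eq_pow_val, this, Units.val_one]
        obtain ⟨i, -, hi⟩ := hζ.eq_pow_of_pow_eq_one htr
        have h1 : (σ : AlgebraicClosure ℚ ≃+* AlgebraicClosure ℚ) (t : AlgebraicClosure ℚ)
            = (t : AlgebraicClosure ℚ) ^ k := by
          show σ (t : AlgebraicClosure ℚ) = _
          rw [← hi, map_pow, hk, ← pow_mul, ← pow_mul, mul_comm]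
        rw [h1, ZMod.val_natCast]
        conv_lhs => rw [← Nat.div_add_mod k r, pow_add, pow_mul, htr, one_pow, one_mul])
    exact h
  have hval : cycloExp r σ = k % r := by
    rw [← val_cycloChar, ← hchar, ZMod.val_natCast]
  rw [hval]
  conv_rhs => rw [← Nat.mod_add_div k r, add_nsmul, mul_nsmul, hru, nsmul_zero, add_zero]

/-- **The adapter**: the flag data of `exists_flag_eisPart` give a flag in the sense of the
frozen skeleton. -/
theorem isFlag_of_flagData (S : Finset ℕ) {r : ℕ} [Fact r.Prime] (n : ℕ)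
    (F : ℕ → AddSubgroup (JZero p)) (u : ℕ → JZero p) (ε : ℕ → Bool)
    (h0 : F 0 = ⊥) (hn : F n = eisPart p S r)
    (hstep : ∀ i < n, F (i + 1) = F i ⊔ AddSubgroup.zmultiples (u i))
    (hnot : ∀ i < n, u i ∉ F i) (hmem : ∀ i < n, u i ∈ eisPart p S r)
    (hact : ∀ i < n, ∀ σ : GalQ688, σ • u i - (if ε i then cycloExp r σ else 1) • u i ∈ F i) :
    IsFlag p (S : Set ℕ) r n F := by
  have hr : r.Prime := Fact.out
  haveI : NeZero r := ⟨hr.ne_zero⟩
  -- stability
  have hstab : ∀ i, i ≤ n → IsStable p (F i) := by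
    intro i
    induction i with
    | zero =>
      intro _ σ f hf
      rw [h0, AddSubgroup.mem_bot] at hf
      rw [hf, h0, AddSubgroup.mem_bot]
      exact @smul_zero GalQ688 (JZero p) _ _ σ
    | succ i ih =>
      intro hi
      rw [hstep i hi]
      exact isStable_step688 (ih (Nat.le_of_succ_le hi))
        (fun σ => if ε i then cycloExp r σ else 1) (hact i hi)
  refine ⟨h0, by rw [hn, eis_eq_eisPart], fun i hi => ?_⟩
  have hru : r • u i = 0 := (hmem i hi).1
  refine ⟨?_, hstab i hi.le, hstab (i + 1) hi, ?_, ?_⟩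
  · rw [hstep i hi]
    exact le_sup_left
  · rw [hstep i hi]
    exact relIndex_step688 hr (hnot i hi) hru
  · -- the type of the piece
    have key : ∀ (c : GalQ688 → ℕ), (∀ σ, σ • u i - c σ • u i ∈ F i) →
        ∀ σ : GalQ688, ∀ f ∈ F (i + 1), σ • f - c σ • f ∈ F i := by
      intro c hc σ f hf
      rw [hstep i hi] at hf
      obtain ⟨a, ha, b, hb, rfl⟩ := AddSubgroup.mem_sup.1 hf
      obtain ⟨k, rfl⟩ := AddSubgroup.mem_zmultiples_iff.1 hb
      have e : σ • (a + k • u i) - c σ • (a + k • u i) =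
          (σ • a - c σ • a) + k • (σ • u i - c σ • u i) := by
        have e0 : ∀ x y a' u' : JZero p, x + k • y - c σ • (a' + k • u') =
            (x - c σ • a') + k • (y - c σ • u') := by
          intro x y a' u'
          module
        rw [smul_add σ a (k • u i), gal_smul_zsmul688]
        exact e0 _ _ _ _
      rw [e]
      exact (F i).add_mem ((F i).sub_mem (hstab i hi.le σ a ha) ((F i).nsmul_mem ha _))
        ((F i).zsmul_mem (hc σ) k)
    cases hε : ε i
    · left
      intro σ f hf
      have h := key (fun _ => 1) (fun σ => by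
        have := hact i hi σ
        rw [hε] at this
        simpa using this) σ f hf
      simpa using h
    · right
      obtain ⟨ζ, hζ⟩ := HasEnoughRootsOfUnity.exists_primitiveRoot (AlgebraicClosure ℚ) r
      refine ⟨ζ, hζ, fun σ k hk f hf => ?_⟩
      -- on `F (i+1)`, `cycloExp r σ • f - k • f ∈ F i`
      have h1 := key (fun σ => cycloExp r σ) (fun σ => by
        have := hact i hi σ
        rw [hε] at this
        simpa using this) σ f hf
      have hrf : r • f = 0 := by
        have hle : F (i + 1) ≤ eisPart p S r := by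
          -- `F (i+1) = F i ⊔ ℤ u_i` and everything is killed by `r`: use monotonicity to `F n`
          have hmono : ∀ j, i + 1 ≤ j → j ≤ n → F (i + 1) ≤ F j := by
            intro j hj
            induction j, hj using Nat.le_induction with
            | base => intro _; exact le_rfl
            | succ j hj ih =>
              intro hjn
              refine (ih (Nat.le_of_succ_le hjn)).trans ?_
              rw [hstep j hjn]
              exact le_sup_left
          exact (hmono n hi le_rfl).trans hn.le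
        exact (hle hf).1
      have h2 : cycloExp r σ • f = k • f := cycloExp_smul_eq688 hζ σ k hk hrf
      rw [← h2]
      exact h1

/-- **FLAG** (frozen leaf of `S15/H975/DescSpec.lean`), unconditionally. -/
theorem flagStatement : FlagStatement := by
  intro p _ hp S r hr _
  haveI : Fact r.Prime := ⟨hr⟩
  obtain ⟨n, F, u, ε, h0, hn, hstep, hnot, hmem, hact⟩ := exists_flag_eisPart p S r hp
  exact ⟨n, F, isFlag_of_flagData S n F u ε h0 hn hstep hnot hmem hact⟩

end Fermat.Agent.S15.H688

end
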