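import Fermat.Agent.S37.Core.Inst

/-!
# Row S15, DESC leaf G3 (helper688): Kummer classes are unramified outside `p r`

Blueprint `coord/S15-DESC-blueprint.md` sec. 3.  Let `N` be a level, `ℓ ∤ N` a prime, `A` a place
of `ℚ̄` over `ℓ` and `m` an integer prime to `ℓ`.  If `y ∈ J₀(N)(ℚ̄)` is such that `m • y` is fixed by
the inertia group at `A` (e.g. `m • y` rational), then `y` itself is fixed by the inertia group at
`A` : the cocycle `c_y(τ) = τ y - y` vanishes on inertia.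

Proof: `τ y - y` is killed by `m` and reduces to `0` under the reduction map of row S37
(`Core.WeakRedData.inertia`), hence is `0` by the frozen S18 (`inj_torsion`), after pulling back to
the auxiliary level `M` (`PullData`, `M = N, 2N, 3N`).

Everything is UNCONDITIONAL (rows S18 and S37 are on main).

* `exists_goodRed` : a reduction map `red : J₀(N) →+ Y` at `A`, inertia-invariant and injective
  on torsion prime to `ℓ` (the composite `W.red ∘ Pd.pull`), packaged once;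
* `inertia_smul_eq_of_nsmul_fixed` : G3;
* `inertia_smul_eq_of_nsmul_rational` : G3 for `m • y` rational;
* `inertia_smul_sub_mem_ker` : the LOC-r-et form (no hypothesis on `m`): `red (τ y - y) = 0`.
-/

set_option autoImplicit false

noncomputable section

namespace Fermat.Agent.S15.H688

open ModularCurve ValuationSubring Fermat.Agent.S37.Core

/-- the absolute Galois group of `ℚ` -/
abbrev GalQ688 : Type := AlgebraicClosure ℚ ≃ₐ[ℚ] AlgebraicClosure ℚ

/-- **A good reduction map at `A`** (from rows S37 + S18, unconditional): additive,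
inertia-invariant, injective on torsion of order prime to `ℓ`. -/
theorem exists_goodRed (N : ℕ) [NeZero N] (ℓ : ℕ) (hℓ : ℓ.Prime) (hℓN : ¬ ℓ ∣ N)
    (A : ValuationSubring (AlgebraicClosure ℚ)) (hA : A.LiesOverPrime ℓ) :
    ∃ (Y : Type) (_ : AddCommGroup Y) (red : JZero N →+ Y),
      (∀ τ ∈ A.inertiaSubgroupIn ℚ, ∀ x : JZero N, red (τ • x) = red x) ∧
      (∀ m : ℕ, ¬ ℓ ∣ m → ∀ x : JZero N, m • x = 0 → red x = 0 → x = 0) := by
  haveI : NeZero ℓ := ⟨hℓ.ne_zero⟩
  obtain ⟨σ₀, hσ₀⟩ := Fermat.Agent.S37.H99.exists_isFrobeniusAt ℓ hℓ A hA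
  obtain ⟨M, hM, ⟨W⟩, ⟨Pd⟩⟩ :=
    weakRedData_of_rim_s18 rimStatement s18Statement N ℓ hℓ hℓN A hA σ₀ hσ₀
  refine ⟨W.Y, W.instY, W.red.comp Pd.pull, ?_, ?_⟩
  · intro τ hτ x
    show W.red (Pd.pull (τ • x)) = W.red (Pd.pull x)
    rw [Pd.galois, W.inertia τ hτ]
  · intro m hm x hx h0
    refine Pd.inj_torsion m hm x hx ?_
    refine W.inj_torsion m hm _ ?_ h0
    rw [← map_nsmul, hx, map_zero]

/-- **LOC-r-et form**: for ANY `y`, the inertia cocycle `τ y - y` lies in the kernel of every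
inertia-invariant additive map. -/
theorem inertia_smul_sub_mem_ker {N : ℕ} [NeZero N]
    {A : ValuationSubring (AlgebraicClosure ℚ)} {Y : Type} [AddCommGroup Y]
    (red : JZero N →+ Y)
    (hred : ∀ τ ∈ A.inertiaSubgroupIn ℚ, ∀ x : JZero N, red (τ • x) = red x)
    (y : JZero N) (τ : GalQ688) (hτ : τ ∈ A.inertiaSubgroupIn ℚ) :
    red (τ • y - y) = 0 := by
  rw [map_sub, hred τ hτ, sub_self]

/-- **G3.**  If `m • y` is fixed by the inertia group at a place `A` over `ℓ ∤ N m`, then so is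
`y`. -/
theorem inertia_smul_eq_of_nsmul_fixed (N : ℕ) [NeZero N] (ℓ : ℕ) (hℓ : ℓ.Prime) (hℓN : ¬ ℓ ∣ N)
    (A : ValuationSubring (AlgebraicClosure ℚ)) (hA : A.LiesOverPrime ℓ)
    (m : ℕ) (hm : ¬ ℓ ∣ m) (y : JZero N)
    (hy : ∀ τ ∈ A.inertiaSubgroupIn ℚ, τ • (m • y) = m • y)
    (τ : GalQ688) (hτ : τ ∈ A.inertiaSubgroupIn ℚ) :
    τ • y = y := by
  obtain ⟨Y, _, red, hin, hinj⟩ := exists_goodRed N ℓ hℓ hℓN A hA
  have h1 : m • (τ • y - y) = 0 := by
    rw [nsmul_sub, smul_comm m τ y, hy τ hτ, sub_self]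
  have h2 : red (τ • y - y) = 0 := inertia_smul_sub_mem_ker red hin y τ hτ
  exact sub_eq_zero.1 (hinj m hm _ h1 h2)

/-- **G3 for rational `m • y`.** -/
theorem inertia_smul_eq_of_nsmul_rational (N : ℕ) [NeZero N] (ℓ : ℕ) (hℓ : ℓ.Prime)
    (hℓN : ¬ ℓ ∣ N) (A : ValuationSubring (AlgebraicClosure ℚ)) (hA : A.LiesOverPrime ℓ)
    (m : ℕ) (hm : ¬ ℓ ∣ m) (y : JZero N) (hy : ∀ σ : GalQ688, σ • (m • y) = m • y)
    (τ : GalQ688) (hτ : τ ∈ A.inertiaSubgroupIn ℚ) :
    τ • y = y :=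
  inertia_smul_eq_of_nsmul_fixed N ℓ hℓ hℓN A hA m hm y (fun σ _ => hy σ) τ hτ

end Fermat.Agent.S15.H688

end
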